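import Mathlib

/-!
# P-MW row 874 (MW-E-FIN), core (helper47): Mathlib only

If `F` is finite over `K(x)` and `t ∈ F` is transcendental over `K`, then `F` is finite over
`K(t)`.

Proof: `F` is algebraic over `K[x]`, so `trdeg K F ≤ 1`; `{t}` is algebraically independent, hence
a transcendence basis, so `F` is algebraic over `K(t)`; `F` is generated as a field over `K` by
`x` and a finite `K(x)`-spanning set, so it is a finitely generated algebraic extension of
`K(t)`, hence finite.
-/

set_option autoImplicit false
set_option linter.style.haveILetI false

open scoped IntermediateField.algebraAdjoinAdjoin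

namespace Fermat.Agent.H47.MW

/-- If `F / K(x)` is finite and `t` is transcendental over `K` then `F / K(t)` is algebraic. -/
theorem isAlgebraic_adjoin_of_finite_of_transcendental {K F : Type*} [Field K] [Field F]
    [Algebra K F] (x t : F)
    (hfin : FiniteDimensional ↥(IntermediateField.adjoin K ({x} : Set F)) F)
    (ht : Transcendental K t) :
    Algebra.IsAlgebraic ↥(IntermediateField.adjoin K ({t} : Set F)) F := by
  haveI h0 : Algebra.IsAlgebraic (IntermediateField.adjoin K ({x} : Set F)) F :=
    Algebra.IsAlgebraic.of_finite _ _
  haveI h1 : Algebra.IsAlgebraic (Algebra.adjoin K ({x} : Set F)) F :=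
    Algebra.IsAlgebraic.trans (Algebra.adjoin K ({x} : Set F))
      (IntermediateField.adjoin K ({x} : Set F)) F
  have htr : Algebra.trdeg K F ≤ 1 := by
    have := Algebra.IsAlgebraic.trdeg_le_cardinalMk K ({x} : Set F)
    simpa using this
  have hind : AlgebraicIndependent K (fun _ : PUnit => t) :=
    algebraicIndependent_unique_type_iff.mpr ht
  have hbasis : IsTranscendenceBasis K (fun _ : PUnit => t) :=
    hind.isTranscendenceBasis_of_trdeg_le_of_finite (by simpa using htr)
  have halg := hbasis.isAlgebraic_field
  have hrange : Set.range (fun _ : PUnit => t) = {t} := Set.range_const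
  rwa [hrange] at halg

/-- **MW-E-FIN, core.**  If `F` is finite over `K(x)` and `t ∈ F` is transcendental over `K`,
then `F` is finite over `K(t)`. -/
theorem finiteDimensional_adjoin_of_transcendental {K F : Type*} [Field K] [Field F]
    [Algebra K F] (x t : F)
    (hfin : FiniteDimensional ↥(IntermediateField.adjoin K ({x} : Set F)) F)
    (ht : Transcendental K t) :
    FiniteDimensional ↥(IntermediateField.adjoin K ({t} : Set F)) F := by
  classical
  haveI halg := isAlgebraic_adjoin_of_finite_of_transcendental x t hfin ht
  obtain ⟨s, hs⟩ :=
    (Module.Finite.fg_top : (⊤ : Submodule (IntermediateField.adjoin K ({x} : Set F)) F).FG)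
  set S : Set F := insert x (s : Set F) with hS
  haveI hSfin : Finite S := (Set.Finite.insert x s.finite_toSet).to_subtype
  haveI hL : FiniteDimensional (IntermediateField.adjoin K ({t} : Set F))
      (IntermediateField.adjoin (IntermediateField.adjoin K ({t} : Set F)) S) :=
    IntermediateField.finiteDimensional_adjoin fun y _ => (halg.isAlgebraic y).isIntegral
  have hxL : x ∈ IntermediateField.adjoin (IntermediateField.adjoin K ({t} : Set F)) S :=
    IntermediateField.subset_adjoin _ _ (Set.mem_insert x _)
  have hsL : ∀ y ∈ s, y ∈ IntermediateField.adjoin (IntermediateField.adjoin K ({t} : Set F)) S :=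
    fun y hy => IntermediateField.subset_adjoin _ _ (Set.mem_insert_of_mem x hy)
  have hKx : IntermediateField.adjoin K ({x} : Set F) ≤
      (IntermediateField.adjoin (IntermediateField.adjoin K ({t} : Set F)) S).restrictScalars K := by
    rw [IntermediateField.adjoin_le_iff]
    intro y hy
    rw [Set.mem_singleton_iff.mp hy]
    exact hxL
  have htop : IntermediateField.adjoin (IntermediateField.adjoin K ({t} : Set F)) S = ⊤ := by
    rw [eq_top_iff]
    intro f hftop
    clear hftop
    have hf : f ∈ Submodule.span (IntermediateField.adjoin K ({x} : Set F)) (s : Set F) := by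
      rw [hs]
      trivial
    induction hf using Submodule.span_induction with
    | mem y hy => exact hsL y hy
    | zero => exact zero_mem _
    | add a b _ _ ha hb => exact add_mem ha hb
    | smul c a _ ha =>
      rw [Algebra.smul_def]
      exact mul_mem (hKx c.2) ha
  have e : (IntermediateField.adjoin (IntermediateField.adjoin K ({t} : Set F)) S)
      ≃ₐ[IntermediateField.adjoin K ({t} : Set F)] F :=
    (IntermediateField.equivOfEq htop).trans IntermediateField.topEquiv
  exact Module.Finite.equiv e.toLinearEquiv

end Fermat.Agent.H47.MW
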