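import Fermat.Agent.H39.MW.ModStatements
import Fermat.Agent.H47.MW.FiniteOverCore

/-!
# P-MW row 874 (MW-E-FIN) (helper47)

`finiteOver : Fermat.Agent.H39.MW.FiniteOverStatement` (unconditional): if `F` is finite over
`K(x)` and `t ∈ F` is transcendental over `K`, then `F` is finite over `K(t)`.  The proof is
`Fermat.Agent.H47.MW.finiteDimensional_adjoin_of_transcendental` (Mathlib only), which also gives
`isAlgebraic_adjoin_of_finite_of_transcendental`.
-/

set_option autoImplicit false

namespace Fermat.Agent.H47.MW

/-- **MW-E-FIN** (row 874). -/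
theorem finiteOver : Fermat.Agent.H39.MW.FiniteOverStatement :=
  fun _ _ _ _ _ x t hfin ht => finiteDimensional_adjoin_of_transcendental x t hfin ht

end Fermat.Agent.H47.MW
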